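import Fermat.Agent.S31.Main
import Fermat.Prelude.Def_GaloisRep_LocalConditions

/-!
# S33 : the Eichler–Shimura interface with the ordinarity clause at `p ‖ N`   (helper1)

`ESInterfaceO N S p` = the interface of `S31/Main.lean` (without the clause on inertia at `q ∤ N p`), plus the clause

(P3)  for every place `P ∣ p`, `I = I_P`, every `σ₀ ∈ I` which moves a `p`-th root of unity, every
      `x ∈ I_I W := ∑_{σ ∈ I} (σ - 1) W` with  `p x = 0`,  `σ₀ x = x`  and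
      `(σ - c)(σ' - 1) x = 0` for all `σ, σ' ∈ I` (`c` = the exponent of `σ` on `μ_p`)      is `0`.

Meaning: `W = J₀(N)[p^m]`; `I_I W` lies in the connected part `W⁰`; in `W⁰[p]` the trivial character of `I` does not occur.
-/

set_option autoImplicit false

namespace Fermat.Agent.S33

open Fermat.Agent.S29 (Qb GQ)

/-- the subgroup `∑_{σ ∈ I} (σ - 1) W` -/
def augI {W : Type} [AddCommGroup W] (act : GQ →* AddMonoid.End W) (I : Subgroup GQ) : AddSubgroup W :=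
  AddSubgroup.closure {y | ∃ σ ∈ I, ∃ w : W, y = act σ w - w}

/-- clause (P3) -/
def OrdClause {W : Type} [AddCommGroup W] (act : GQ →* AddMonoid.End W) (p : ℕ) : Prop :=
  ∀ P : ValuationSubring Qb, P.LiesOverPrime p → ∀ σ₀ ∈ P.inertiaSubgroupIn ℚ,
    (∃ ζ : Qb, ζ ^ p = 1 ∧ σ₀ ζ ≠ ζ) →
    ∀ x ∈ augI act (P.inertiaSubgroupIn ℚ), p • x = 0 → act σ₀ x = x →
      (∀ σ ∈ P.inertiaSubgroupIn ℚ, ∀ σ' ∈ P.inertiaSubgroupIn ℚ, ∀ c : ℕ,
        (∀ μ : Qb, μ ^ p = 1 → σ μ = μ ^ c) → act σ (act σ' x - x) = c • (act σ' x - x)) →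
      x = 0

/-- the Eichler–Shimura interface with the ordinarity clause -/
def ESInterfaceO (N : ℕ) [NeZero N] (S : Set ℕ) (p : ℕ) : Prop :=
  ∀ n : ℕ, ∃ (m : ℕ) (W : Type) (_ : AddCommGroup W) (act : GQ →* AddMonoid.End W)
    (a : CuspForm.heckeAlgebra N 2 S →+* AddMonoid.End W),
    n ≤ m ∧ Finite W ∧
    (∀ w : W, (p ^ m) • w = 0) ∧
    (∃ L : IntermediateField ℚ Qb, FiniteDimensional ℚ L ∧
      ∀ σ : GQ, (∀ x ∈ L, σ x = x) → act σ = 1) ∧
    (∀ (x : CuspForm.heckeAlgebra N 2 S) (g : GQ), Commute (a x) (act g)) ∧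
    (∀ (ℓ : ℕ) (hℓ : ℓ.Prime) (hℓN : ¬ ℓ ∣ N) (hℓS : ℓ ∉ S) (A : ValuationSubring Qb),
      A.LiesOverPrime ℓ → ∀ τ : GQ, A.IsFrobeniusAt τ ℓ →
        act τ * act τ - a (CuspForm.heckeAlgebra.T hℓ hℓN hℓS) * act τ
          + (ℓ : AddMonoid.End W) = 0) ∧
    OrdClause act p ∧
    (∀ x : CuspForm.heckeAlgebra N 2 S, a x = 0 → ∃ y, x = (p ^ n : ℕ) • y)

end Fermat.Agent.S33
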